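import Mathlib.NumberTheory.Chebyshev
import Mathlib.NumberTheory.Primorial
import Mathlib.NumberTheory.SmoothNumbers
import Mathlib.NumberTheory.SumPrimeReciprocals
import Mathlib.Data.Nat.ChineseRemainder
import Mathlib.Analysis.Complex.ExponentialBounds

/-!
# Westzynthius's covering and long gaps between primes

To cover `[1, h x]` by one residue class for each prime `p ≤ x`: the zero class for `L < p ≤ x / 16`
leaves the few `L`-smooth numbers and `16 h` dilates of the primes; greedy classes for `p ≤ L` make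
these as sparse as we please, and the primes in `(x / 16, x]` remove what is left one by one.
-/

set_option autoImplicit false

noncomputable section

namespace FA.LargeGaps

open Finset Filter Nat.Prime
open scoped Topology Nat.Prime

theorem exists_greedy (U : Finset ℕ) (P : Finset ℕ) (hP : ∀ p ∈ P, p.Prime) :
    ∃ r : ℕ → ℕ, ((U.filter fun n => ∀ p ∈ P, ¬ n ≡ r p [MOD p]).card : ℝ) ≤
      (∏ p ∈ P, (1 - 1 / (p : ℝ))) * U.card := by
  induction P using Finset.induction with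
  | empty => exact ⟨fun _ => 0, by simp⟩
  | insert q P hq ih =>
    obtain ⟨r, hr⟩ := ih fun p hp => hP p (mem_insert_of_mem hp)
    have hq0 := (hP q (mem_insert_self q P)).pos
    obtain ⟨V, hV⟩ : ∃ V, V = U.filter fun n => ∀ p ∈ P, ¬ n ≡ r p [MOD p] := ⟨_, rfl⟩
    rw [← hV] at hr
    obtain ⟨c, hc, hmax⟩ := exists_le_of_sum_le (s := range q) (nonempty_range_iff.2 hq0.ne')
      (f := fun _ => (V.card : ℝ) / q) (g := fun c => ((V.filter fun n => n % q = c).card : ℝ))
      (by rw [sum_const, card_range, nsmul_eq_mul, mul_div_cancel₀ _ (Nat.cast_ne_zero.2 hq0.ne'),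
            ← Nat.cast_sum, ← card_eq_sum_card_fiberwise fun n _ => mem_range.2 (Nat.mod_lt n hq0)])
    refine ⟨Function.update r q c, ?_⟩
    have hsub : (U.filter fun n => ∀ p ∈ insert q P, ¬ n ≡ Function.update r q c p [MOD p]) ⊆
        V.filter fun n => ¬ n % q = c := fun n hn => by
      rw [mem_filter, forall_mem_insert, Function.update_self] at hn
      rw [hV, mem_filter, mem_filter]
      refine ⟨⟨hn.1, fun p hp => ?_⟩, fun e => hn.2.1 ?_⟩
      · have := hn.2.2 p hp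
        rwa [Function.update_of_ne (ne_of_mem_of_not_mem hp hq)] at this
      · rw [Nat.ModEq, e, Nat.mod_eq_of_lt (mem_range.1 hc)]
    refine (Nat.cast_le.2 (card_le_card hsub)).trans ?_
    have h1 : ((V.filter fun n => n % q = c).card : ℝ) +
        (V.filter fun n => ¬ n % q = c).card = V.card := by
      rw [← Nat.cast_add, card_filter_add_card_filter_not]
    rw [prod_insert hq, mul_assoc]
    refine le_trans ?_ (mul_le_mul_of_nonneg_left hr (sub_nonneg.2
      ((div_le_one (Nat.cast_pos.2 hq0)).2 (Nat.one_le_cast.2 hq0))))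
    rw [sub_mul, one_mul, one_div_mul_eq_div]
    linarith

theorem exists_prod_le {δ : ℝ} (hδ : 0 < δ) : ∃ L : ℕ,
    ∏ p ∈ (range (L + 1)).filter Nat.Prime, (1 - 1 / (p : ℝ)) ≤ δ := by
  have h := (not_summable_iff_tendsto_nat_atTop_of_nonneg
    (fun n => Set.indicator_nonneg (fun p _ => by positivity) n)).1 not_summable_one_div_on_primes
  obtain ⟨L, hL⟩ := ((h.comp (tendsto_add_atTop_nat 1)).eventually_ge_atTop (-Real.log δ)).exists
  refine ⟨L, ?_⟩
  have e : ∑ p ∈ range (L + 1), Set.indicator {p | Nat.Prime p} (fun n : ℕ => (1 : ℝ) / n) p =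
      ∑ p ∈ (range (L + 1)).filter Nat.Prime, (1 : ℝ) / p := by
    rw [sum_filter]
    exact sum_congr rfl fun p _ => by by_cases hp : p.Prime <;> simp [hp]
  simp only [Function.comp_apply] at hL
  rw [e] at hL
  calc ∏ p ∈ (range (L + 1)).filter Nat.Prime, (1 - 1 / (p : ℝ))
      ≤ ∏ p ∈ (range (L + 1)).filter Nat.Prime, Real.exp (-(1 / (p : ℝ))) := by
        refine prod_le_prod (fun p hp => ?_) fun p _ => ?_
        · have := (mem_filter.1 hp).2.one_lt
          rw [sub_nonneg, div_le_one (by positivity)]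
          exact Nat.one_le_cast.2 this.le
        · linarith [Real.add_one_le_exp (-(1 / (p : ℝ)))]
    _ = Real.exp (-∑ p ∈ (range (L + 1)).filter Nat.Prime, (1 : ℝ) / p) := by
        rw [← Real.exp_sum, sum_neg_distrib]
    _ ≤ δ := by
        rw [← Real.exp_log hδ, Real.exp_le_exp]
        linarith

/-- What the zero classes for `L < p ≤ x / 16` leave of `[1, h x]`. -/
theorem card_survivors_le (h L x : ℕ) :
    ((Icc 1 (h * x)).filter fun n =>
      ∀ p ≤ x / 16, p.Prime → L < p → ¬ p ∣ n).card ≤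
        2 ^ (L + 1).primesBelow.card * (h * x).sqrt + 16 * h * π (h * x) := by
  have hsub : ((Icc 1 (h * x)).filter fun n => ∀ p ≤ x / 16, p.Prime → L < p → ¬ p ∣ n) ⊆
      Nat.smoothNumbersUpTo (h * x) (L + 1) ∪
        (Icc 1 (16 * h) ×ˢ Nat.primesLE (h * x)).image fun z => z.1 * z.2 := by
    intro n hn
    rw [mem_filter, mem_Icc] at hn
    by_cases hs : ∀ p, p.Prime → p ∣ n → p < L + 1
    · exact mem_union_left _ (Nat.mem_smoothNumbersUpTo.2
        ⟨hn.1.2, Nat.mem_smoothNumbers'.2 hs⟩)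
    push Not at hs
    obtain ⟨q, hq, hqn, hqL⟩ := hs
    have hqz : x / 16 < q := not_le.1 fun hle => hn.2 q hle hq (by omega) hqn
    obtain ⟨m, rfl⟩ := hqn
    refine mem_union_right _ (mem_image.2 ⟨(m, q), mem_product.2 ⟨mem_Icc.2 ⟨?_, ?_⟩, ?_⟩,
      mul_comm m q⟩)
    · exact Nat.pos_of_mul_pos_left hn.1.1
    · have h1 : x ≤ 16 * q := by omega
      exact Nat.le_of_mul_le_mul_left (hn.1.2.trans ((Nat.mul_le_mul_left h h1).trans_eq (by ring)))
        hq.pos
    · exact Nat.mem_primesLE.2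
        ⟨(Nat.le_mul_of_pos_right q (Nat.pos_of_mul_pos_left hn.1.1)).trans hn.1.2, hq⟩
  refine (card_le_card hsub).trans ((card_union_le _ _).trans (Nat.add_le_add
    (Nat.smoothNumbersUpTo_card_le _ _) (card_image_le.trans ?_)))
  rw [card_product, Nat.card_Icc, Nat.primesLE_card_eq_primeCounting]
  simp

/-- The primes in `(x / 16, x]`. -/
theorem eventually_card_top_ge :
    ∀ᶠ x : ℕ in atTop, (x : ℝ) / (3 * Real.log x) ≤
      ((Ioc (x / 16) x).filter Nat.Prime).card := by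
  have h16 : Tendsto (fun x : ℕ => (x : ℝ) / 16) atTop atTop :=
    tendsto_natCast_atTop_atTop.atTop_div_const (by norm_num)
  filter_upwards [h16.eventually (Chebyshev.eventually_primeCounting_le (ε := 1 / 2) (by norm_num)),
    eventually_ge_atTop (16 ^ 3)] with x hz hx
  have hxR : (16 : ℝ) ^ 3 ≤ x := by exact_mod_cast hx
  have hl16 : 3 * Real.log 16 ≤ Real.log x := by
    have := Real.log_le_log (by positivity) hxR
    rwa [Real.log_pow] at this
  have hl : 0 < Real.log x := lt_of_lt_of_le (by positivity) hl16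
  have hup : (π (x / 16) : ℝ) ≤ (1 / 5) * (x / Real.log x) := by
    rw [show ⌊(x : ℝ) / 16⌋₊ = x / 16 by
      rw [show (16 : ℝ) = ((16 : ℕ) : ℝ) by norm_num, Nat.floor_div_eq_div]] at hz
    refine hz.trans ?_
    rw [Real.log_div (by positivity) (by norm_num), ← mul_div_assoc, ← mul_div_assoc,
      div_le_div_iff₀ (by linarith [Real.log_pos (show (1 : ℝ) < 16 by norm_num)]) hl]
    have h4 : Real.log 4 ≤ 1.4 := by
      rw [show (4 : ℝ) = 2 ^ 2 by norm_num, Real.log_pow]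
      push_cast
      linarith [Real.log_two_lt_d9]
    nlinarith [mul_le_mul_of_nonneg_left hl16 (Nat.cast_nonneg (α := ℝ) x),
      mul_le_mul_of_nonneg_right h4 (mul_nonneg (Nat.cast_nonneg (α := ℝ) x) hl.le),
      mul_nonneg (Nat.cast_nonneg (α := ℝ) x) hl.le]
  have hlow : (3 / 5) * ((x : ℝ) / Real.log x) ≤ π x := by
    refine le_trans ?_ (Chebyshev.pi_ge x)
    rw [← mul_div_assoc]
    refine div_le_div_of_nonneg_right ?_ hl.le
    have h1 : Real.log ((x : ℝ) + 1) ≤ 2 * Real.log 256 + x / 65536 := by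
      have h3 := Real.log_le_sub_one_of_pos (show 0 < ((x : ℝ) + 1) / 256 ^ 2 by positivity)
      rw [Real.log_div (by positivity) (by norm_num), Real.log_pow] at h3
      push_cast at h3
      linarith
    have h2 : Real.log 256 ≤ 6 := by
      rw [show (256 : ℝ) = 2 ^ 8 by norm_num, Real.log_pow]
      push_cast
      linarith [Real.log_two_lt_d9]
    nlinarith [Real.log_two_gt_d9]
  have hcount : π x ≤ π (x / 16) + ((Ioc (x / 16) x).filter Nat.Prime).card := by
    rw [← Nat.primesLE_card_eq_primeCounting, ← Nat.primesLE_card_eq_primeCounting]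
    refine (card_le_card fun p hp => ?_).trans (card_union_le _ _)
    rw [Nat.mem_primesLE] at hp
    by_cases h : p ≤ x / 16
    · exact mem_union_left _ (Nat.mem_primesLE.2 ⟨h, hp.2⟩)
    · exact mem_union_right _ (mem_filter.2 ⟨mem_Ioc.2 ⟨not_le.1 h, hp.1⟩, hp.2⟩)
  have hcount' : (π x : ℝ) ≤ π (x / 16) + (((Ioc (x / 16) x).filter Nat.Prime).card : ℕ) := by
    exact_mod_cast hcount
  have : 0 ≤ (x : ℝ) / Real.log x := by positivity
  rw [mul_comm 3, ← div_div]
  linarith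

/-- **Westzynthius's covering.** -/
theorem eventually_covering (h : ℕ) : ∀ᶠ x : ℕ in atTop, ∃ r : ℕ → ℕ,
    ∀ n ∈ Icc 1 (h * x), ∃ p ≤ x, p.Prime ∧ n ≡ r p [MOD p] := by
  rcases Nat.eq_zero_or_pos h with rfl | hh
  · exact Eventually.of_forall fun x => ⟨fun _ => 0, by simp⟩
  obtain ⟨L, hL⟩ := exists_prod_le (δ := 1 / (3 * (48 * (h : ℝ) ^ 2 + 1))) (by positivity)
  obtain ⟨c, hc⟩ : ∃ c : ℝ, c = 2 ^ (L + 1).primesBelow.card * Real.sqrt h := ⟨_, rfl⟩
  have hY : Tendsto (fun x : ℕ => (((h * x : ℕ)) : ℝ)) atTop atTop :=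
    tendsto_natCast_atTop_atTop.comp (tendsto_id.const_mul_atTop' hh)
  have hsmall : ∀ᶠ x : ℕ in atTop, c * (Real.log x * Real.sqrt x) ≤ x := by
    have h1 := (isLittleO_log_rpow_atTop (show (0 : ℝ) < 1 / 2 by norm_num)).bound
      (show 0 < 1 / (|c| + 1) by positivity)
    filter_upwards [tendsto_natCast_atTop_atTop.eventually h1, eventually_ge_atTop 1] with x hx hx1
    rw [Real.norm_eq_abs, Real.norm_eq_abs, abs_of_nonneg (Real.log_natCast_nonneg x),
      abs_of_nonneg (Real.rpow_nonneg (Nat.cast_nonneg x) _), ← Real.sqrt_eq_rpow,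
      div_mul_eq_mul_div, one_mul, le_div_iff₀ (show 0 < |c| + 1 by positivity)] at hx
    nlinarith [Real.sqrt_nonneg (x : ℝ), Real.mul_self_sqrt (Nat.cast_nonneg (α := ℝ) x),
      le_abs_self c, mul_nonneg (Real.log_natCast_nonneg x) (Real.sqrt_nonneg (x : ℝ))]
  filter_upwards [eventually_card_top_ge,
    hY.eventually (Chebyshev.eventually_primeCounting_le (ε := 1 / 2) (by norm_num)), hsmall,
    eventually_ge_atTop (16 * (L + 1) + 2)] with x htop hpi hsm hx
  simp only [Nat.floor_natCast] at hpi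
  have hl : 0 < Real.log x := Real.log_pos (Nat.one_lt_cast.2 (by omega))
  obtain ⟨U, hU⟩ : ∃ U, U = (Icc 1 (h * x)).filter fun n =>
      ∀ p ≤ x / 16, p.Prime → L < p → ¬ p ∣ n := ⟨_, rfl⟩
  obtain ⟨P, hP⟩ : ∃ P, P = (range (L + 1)).filter Nat.Prime := ⟨_, rfl⟩
  obtain ⟨r₁, hr₁⟩ := exists_greedy U P fun p hp => (mem_filter.1 (hP ▸ hp)).2
  obtain ⟨S, hS⟩ : ∃ S, S = U.filter fun n => ∀ p ∈ P, ¬ n ≡ r₁ p [MOD p] := ⟨_, rfl⟩
  have hUcard : (U.card : ℝ) ≤ (48 * (h : ℝ) ^ 2 + 1) * ((x : ℝ) / Real.log x) := by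
    have h1 := (Nat.cast_le (α := ℝ)).2 (hU ▸ card_survivors_le h L x)
    push_cast at h1 hpi
    have hsq : (((h * x).sqrt : ℕ) : ℝ) ≤ Real.sqrt h * Real.sqrt x := by
      rw [← Real.sqrt_mul (Nat.cast_nonneg h), ← Nat.cast_mul]
      exact Real.nat_sqrt_le_real_sqrt
    have hA : (2 : ℝ) ^ (L + 1).primesBelow.card * ((h * x).sqrt : ℕ) ≤ x / Real.log x := by
      rw [le_div_iff₀ hl]
      refine le_trans ?_ hsm
      rw [hc]
      nlinarith [mul_le_mul_of_nonneg_left hsq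
        (show (0 : ℝ) ≤ 2 ^ (L + 1).primesBelow.card * Real.log x by positivity)]
    have hB : (π (h * x) : ℝ) ≤ 3 * h * (x / Real.log x) := by
      refine hpi.trans ?_
      have hh1 : (1 : ℝ) ≤ h := Nat.one_le_cast.2 hh
      have h4 : Real.log 4 ≤ 1.4 := by
        rw [show (4 : ℝ) = 2 ^ 2 by norm_num, Real.log_pow]
        push_cast
        linarith [Real.log_two_lt_d9]
      have hlog : Real.log x ≤ Real.log ((h : ℝ) * x) :=
        Real.log_le_log (Nat.cast_pos.2 (by omega)) (le_mul_of_one_le_left (by positivity) hh1)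
      rw [← mul_div_assoc, ← mul_assoc]
      exact div_le_div₀ (by positivity)
        (mul_le_mul_of_nonneg_right
          (mul_le_mul_of_nonneg_right (by linarith) (Nat.cast_nonneg h)) (Nat.cast_nonneg x))
        hl hlog
    nlinarith [mul_le_mul_of_nonneg_left hB (show (0 : ℝ) ≤ 16 * h by positivity)]
  have hST : S.card ≤ ((Ioc (x / 16) x).filter Nat.Prime).card := by
    rw [← Nat.cast_le (α := ℝ)]
    refine le_trans ((hS ▸ hr₁).trans ?_) htop
    refine (mul_le_mul (hP ▸ hL) hUcard (Nat.cast_nonneg _) (by positivity)).trans (le_of_eq ?_)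
    field_simp
  obtain ⟨e⟩ : Nonempty ((↥S : Type) ↪ ↥((Ioc (x / 16) x).filter Nat.Prime)) :=
    Function.Embedding.nonempty_of_card_le (by simpa using hST)
  classical
  refine ⟨fun p => if p ≤ L then r₁ p else
    if hp : ∃ n : ↥S, ((e n : ℕ)) = p then (hp.choose : ℕ) else 0, fun n hn => ?_⟩
  by_cases hnU : n ∈ U
  · by_cases hnS : n ∈ S
    · have hmem := mem_filter.1 (e ⟨n, hnS⟩).2
      rw [mem_Ioc] at hmem
      refine ⟨(e ⟨n, hnS⟩ : ℕ), hmem.1.2, hmem.2, ?_⟩
      have hex : ∃ m : ↥S, ((e m : ℕ)) = (e ⟨n, hnS⟩ : ℕ) := ⟨_, rfl⟩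
      dsimp only
      rw [if_neg (by omega), dif_pos hex, e.injective (Subtype.ext hex.choose_spec)]
    · rw [hS, mem_filter, not_and] at hnS
      have := hnS hnU
      push Not at this
      obtain ⟨p, hp, hnp⟩ := this
      rw [hP, mem_filter, mem_range] at hp
      refine ⟨p, by omega, hp.2, ?_⟩
      dsimp only
      rwa [if_pos (show p ≤ L by omega)]
  · rw [hU, mem_filter, not_and] at hnU
    have := hnU hn
    push Not at this
    obtain ⟨p, hpz, hp, hLp, hpn⟩ := this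
    refine ⟨p, by omega, hp, ?_⟩
    dsimp only
    rw [if_neg (by omega), dif_neg, Nat.modEq_zero_iff_dvd]
    · exact hpn
    · rintro ⟨m, hm⟩
      have := mem_Ioc.1 (mem_filter.1 (e m).2).1
      omega

/-- Consecutive numbers, each with a prime factor `≤ x`. -/
theorem eventually_run (h : ℕ) : ∀ᶠ x : ℕ in atTop, ∃ n₀ : ℕ, x ≤ n₀ ∧ n₀ < (x + 1) * 4 ^ x ∧
    ∀ j ∈ Icc 1 (h * x), ∃ p ≤ x, p.Prime ∧ p ∣ n₀ + j := by
  filter_upwards [eventually_covering h] with x hx
  obtain ⟨r, hr⟩ := hx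
  have hne : ∀ p ∈ (range (x + 1)).filter Nat.Prime, id p ≠ 0 := fun p hp =>
    (mem_filter.1 hp).2.ne_zero
  have hco : Set.Pairwise (↑((range (x + 1)).filter Nat.Prime)) (Nat.Coprime.onFun id) :=
    fun p hp q hq hpq => (Nat.coprime_primes (mem_filter.1 hp).2 (mem_filter.1 hq).2).2 hpq
  obtain ⟨k, hk, hkP⟩ : ∃ k, (∀ p ∈ (range (x + 1)).filter Nat.Prime,
      k ≡ p - r p % p [MOD p]) ∧ k < primorial x :=
    ⟨_, (Nat.chineseRemainderOfFinset (fun p => p - r p % p) id _ hne hco).2,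
      Nat.chineseRemainderOfFinset_lt_prod _ _ hne hco⟩
  have hP1 : 1 ≤ primorial x := primorial_pos x
  refine ⟨k + x * primorial x, (Nat.le_mul_of_pos_right x hP1).trans (Nat.le_add_left _ _), ?_,
    fun j hj => ?_⟩
  · calc k + x * primorial x < (x + 1) * primorial x := by linarith
      _ ≤ (x + 1) * 4 ^ x := Nat.mul_le_mul_left _ (primorial_le_four_pow x)
  · obtain ⟨p, hpx, hp, hjp⟩ := hr j hj
    refine ⟨p, hpx, hp, ?_⟩
    have hmem : p ∈ (range (x + 1)).filter Nat.Prime :=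
      mem_filter.2 ⟨mem_range.2 (by omega), hp⟩
    have hdvd : p ∣ x * primorial x :=
      (dvd_prod_of_mem _ hmem : p ∣ primorial x).mul_left x
    rw [add_right_comm]
    refine (Nat.dvd_add_right ?_).2 hdvd |>.trans (dvd_of_eq rfl)
    have h1 : k + j ≡ p - r p % p + r p % p [MOD p] :=
      (hk p hmem).add (hjp.trans (Nat.mod_modEq _ _).symm)
    rw [Nat.sub_add_cancel (Nat.mod_lt _ hp.pos).le] at h1
    exact Nat.modEq_zero_iff_dvd.1 (h1.trans (Nat.modEq_zero_iff_dvd.2 dvd_rfl))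

/-- Some prime gap starting below `(x + 1) 4 ^ x` exceeds `h x`. -/
theorem eventually_exists_gap (h : ℕ) : ∀ᶠ x : ℕ in atTop, ∃ i : ℕ,
    Nat.nth Nat.Prime i ≤ (x + 1) * 4 ^ x ∧
      Nat.nth Nat.Prime i + h * x < Nat.nth Nat.Prime (i + 1) := by
  filter_upwards [eventually_run h, eventually_gt_atTop 2] with x hx hx2
  obtain ⟨n₀, hxn, hn4, hrun⟩ := hx
  obtain ⟨i, hi, hi'⟩ : ∃ i, Nat.nth Nat.Prime i ≤ n₀ ∧ n₀ < Nat.nth Nat.Prime (i + 1) := by
    refine ⟨Nat.count Nat.Prime (n₀ + 1) - 1, ?_, ?_⟩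
    · have hc : Nat.count Nat.Prime (n₀ + 1) - 1 < Nat.count Nat.Prime (n₀ + 1) := by
        have : 0 < Nat.count Nat.Prime (n₀ + 1) :=
          lt_of_le_of_lt (Nat.zero_le _) (Nat.count_strict_mono Nat.prime_two (by omega) :
            Nat.count Nat.Prime 2 < Nat.count Nat.Prime (n₀ + 1))
        omega
      exact Nat.lt_succ_iff.1 (Nat.nth_lt_of_lt_count hc)
    · refine lt_of_lt_of_le (Nat.lt_succ_self n₀) ?_
      refine le_trans (Nat.le_nth_count Nat.infinite_setOfPred_prime (n₀ + 1)) ?_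
      exact Nat.nth_monotone Nat.infinite_setOfPred_prime (show Nat.count Nat.Prime (n₀ + 1) ≤
        Nat.count Nat.Prime (n₀ + 1) - 1 + 1 by omega)
  obtain ⟨q, hq⟩ : ∃ q, q = Nat.nth Nat.Prime (i + 1) := ⟨_, rfl⟩
  rw [← hq] at hi'
  have hqp : q.Prime := hq ▸ Nat.prime_nth_prime _
  have hgap : n₀ + h * x < q := by
    by_contra hle
    obtain ⟨p, hpx, hp, hpd⟩ := hrun (q - n₀) (mem_Icc.2 ⟨by omega, by omega⟩)
    rw [Nat.add_sub_cancel' hi'.le] at hpd
    have := (Nat.prime_dvd_prime_iff_eq hp hqp).1 hpd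
    omega
  exact ⟨i, hi.trans hn4.le, hq ▸ (Nat.add_le_add_right hi _).trans_lt hgap⟩

/-- **The largest gap below `X` beats every multiple of `log X`.** -/
theorem eventually_large_gap (K : ℝ) : ∀ᶠ X : ℕ in atTop, ∃ i : ℕ, Nat.nth Nat.Prime i ≤ X ∧
    K * Real.log X < (Nat.nth Nat.Prime (i + 1) : ℝ) - Nat.nth Nat.Prime i := by
  obtain ⟨h, hh⟩ := exists_nat_gt (6 * |K|)
  obtain ⟨x₀, hx₀⟩ := eventually_atTop.1 ((eventually_exists_gap h).and (eventually_ge_atTop 1))
  filter_upwards [eventually_ge_atTop (16 ^ x₀)] with X hX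
  have hX0 : X ≠ 0 := (Nat.lt_of_lt_of_le (pow_pos (by norm_num) _) hX).ne'
  obtain ⟨x, hx⟩ : ∃ x, x = Nat.log 16 X := ⟨_, rfl⟩
  obtain ⟨⟨i, hi, hgap⟩, hx1⟩ := hx₀ x (hx ▸ Nat.le_log_of_pow_le (by norm_num) hX)
  refine ⟨i, hi.trans (le_trans ?_ (hx ▸ Nat.pow_log_le_self 16 hX0)), ?_⟩
  · calc (x + 1) * 4 ^ x ≤ 4 ^ x * 4 ^ x := Nat.mul_le_mul_right _ (Nat.lt_pow_self (by norm_num))
      _ = 16 ^ x := by rw [← mul_pow]; norm_num
  have hlt : (X : ℝ) ≤ (16 : ℝ) ^ (x + 1) := by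
    exact_mod_cast hx ▸ (Nat.lt_pow_succ_log_self (by norm_num) X).le
  have h1 := Real.log_le_log (Nat.cast_pos.2 (Nat.pos_of_ne_zero hX0)) hlt
  rw [Real.log_pow, show (16 : ℝ) = 2 ^ 4 by norm_num, Real.log_pow] at h1
  push_cast at h1
  have hxR : (1 : ℝ) ≤ x := Nat.one_le_cast.2 hx1
  have h2 : Real.log X ≤ 6 * x := by nlinarith [Real.log_two_lt_d9, Real.log_two_gt_d9]
  have h3 : K * Real.log X ≤ |K| * (6 * x) :=
    (mul_le_mul_of_nonneg_right (le_abs_self K) (Real.log_natCast_nonneg X)).trans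
      (mul_le_mul_of_nonneg_left h2 (abs_nonneg K))
  have h4 : (Nat.nth Nat.Prime i : ℝ) + h * x < Nat.nth Nat.Prime (i + 1) := by exact_mod_cast hgap
  nlinarith [mul_le_mul_of_nonneg_right hh.le (Nat.cast_nonneg (α := ℝ) x)]

/-- **Westzynthius's theorem.** -/
theorem frequently_large_gap (K : ℝ) : ∃ᶠ i : ℕ in atTop,
    K * Real.log (Nat.nth Nat.Prime i) < (Nat.nth Nat.Prime (i + 1) : ℝ) - Nat.nth Nat.Prime i := by
  refine frequently_atTop.2 fun i₀ => ?_
  have hlog : Tendsto (fun X : ℕ => Real.log X) atTop atTop :=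
    Real.tendsto_log_atTop.comp tendsto_natCast_atTop_atTop
  obtain ⟨X, ⟨i, hiX, hgap⟩, hX⟩ := ((eventually_large_gap (|K| + 1)).and
    (hlog.eventually_ge_atTop (Nat.nth Nat.Prime i₀))).exists
  have hp : (1 : ℝ) ≤ Nat.nth Nat.Prime i :=
    Nat.one_le_cast.2 (Nat.prime_nth_prime i).one_lt.le
  refine ⟨i, ?_, lt_of_le_of_lt (le_trans (mul_le_mul (le_abs_self K)
    (Real.log_le_log (by linarith) (Nat.cast_le.2 hiX)) (Real.log_nonneg hp) (abs_nonneg K))
    (mul_le_mul_of_nonneg_right (by linarith) (Real.log_natCast_nonneg X))) hgap⟩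
  by_contra hlt
  have : Nat.nth Nat.Prime (i + 1) ≤ Nat.nth Nat.Prime i₀ :=
    Nat.nth_monotone Nat.infinite_setOfPred_prime (show i + 1 ≤ i₀ by omega)
  have h5 : (Nat.nth Nat.Prime (i + 1) : ℝ) ≤ Nat.nth Nat.Prime i₀ := Nat.cast_le.2 this
  nlinarith [abs_nonneg K, Real.log_natCast_nonneg X]

end FA.LargeGaps
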